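import Mathlib
import Fermat.Agent.LT.T1.Spec

/-!
# Row LT, tower T1, shared core HAAR-SCALE, part A (helper868)

OFF-MAIN.  The module of an idele, abstract part.

For a Haar measure `μ` of `𝔸_K` and an idele `x` there is a constant `modF868 μ x` with
`μ (x S) = modF868 μ x * μ S` for EVERY set `S`; it is multiplicative in `x`, and it is `1` on the
principal ideles (Weil's lattice argument: `x ↦ ξ x` maps a fundamental domain of `K` to a
fundamental domain of `K`).
-/

set_option autoImplicit false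
set_option linter.style.haveILetI false
set_option linter.unusedVariables false

open IsDedekindDomain NumberField MeasureTheory
open scoped ENNReal NNReal

noncomputable section

namespace Fermat.Agent.LT.T1.H868

open Fermat.Agent.LT.H556.A0

variable (K : Type) [Field K] [NumberField K]

/-- Multiplication by an idele as a continuous additive automorphism of `𝔸_K`. -/
def mulCAE868 (c : (Adl K)ˣ) : Adl K ≃ₜ+ Adl K where
  toFun x := (c : Adl K) * x
  invFun x := ((c⁻¹ : (Adl K)ˣ) : Adl K) * x
  left_inv x := by simp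
  right_inv x := by simp
  map_add' x y := mul_add _ _ _
  continuous_toFun := continuous_const.mul continuous_id
  continuous_invFun := continuous_const.mul continuous_id

@[simp] theorem mulCAE868_apply (c : (Adl K)ˣ) (x : Adl K) :
    mulCAE868 K c x = (c : Adl K) * x := rfl

theorem mulCAE868_symm_apply (c : (Adl K)ˣ) (x : Adl K) :
    (mulCAE868 K c).symm x = ((c⁻¹ : (Adl K)ˣ) : Adl K) * x := rfl

theorem image_mul_eq_preimage868 (c : (Adl K)ˣ) (S : Set (Adl K)) :
    (fun y : Adl K => (c : Adl K) * y) '' S = (mulCAE868 K c⁻¹) ⁻¹' S := by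
  ext y
  constructor
  · rintro ⟨z, hz, rfl⟩
    simpa using hz
  · intro hy
    exact ⟨((c⁻¹ : (Adl K)ˣ) : Adl K) * y, hy, by simp⟩

section Measure

variable {K}
variable [MeasurableSpace (Adl K)] [BorelSpace (Adl K)] [LocallyCompactSpace (Adl K)]
  [SecondCountableTopology (Adl K)]

/-- The module of the idele `x` with respect to the Haar measure `μ`. -/
def modF868 (μ : Measure (Adl K)) [μ.IsAddHaarMeasure] (x : (Adl K)ˣ) : ℝ≥0 :=
  haveI : (Measure.map (mulCAE868 K x⁻¹) μ).IsAddHaarMeasure :=
    (mulCAE868 K x⁻¹).isAddHaarMeasure_map μ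
  Measure.addHaarScalarFactor (Measure.map (mulCAE868 K x⁻¹) μ) μ

theorem map_eq_modF868 (μ : Measure (Adl K)) [μ.IsAddHaarMeasure] (x : (Adl K)ˣ) :
    Measure.map (mulCAE868 K x⁻¹) μ = modF868 μ x • μ := by
  haveI : (Measure.map (mulCAE868 K x⁻¹) μ).IsAddHaarMeasure :=
    (mulCAE868 K x⁻¹).isAddHaarMeasure_map μ
  exact Measure.isAddLeftInvariant_eq_smul (Measure.map (mulCAE868 K x⁻¹) μ) μ

/-- `μ (x S) = mod(x) μ(S)` for every set `S`. -/
theorem measure_image_mul868 (μ : Measure (Adl K)) [μ.IsAddHaarMeasure] (x : (Adl K)ˣ)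
    (S : Set (Adl K)) :
    μ ((fun y : Adl K => (x : Adl K) * y) '' S) = (modF868 μ x : ℝ≥0∞) * μ S := by
  rw [image_mul_eq_preimage868]
  have h := congrArg (fun ν : Measure (Adl K) => ν S) (map_eq_modF868 μ x)
  simp only [Measure.smul_apply] at h
  have h2 : Measure.map (mulCAE868 K x⁻¹) μ S = μ ((mulCAE868 K x⁻¹) ⁻¹' S) :=
    (mulCAE868 K x⁻¹).toHomeomorph.toMeasurableEquiv.map_apply S
  rw [← h2, h]
  simp [ENNReal.smul_def]

/-- The module is determined by ONE test set of finite positive measure. -/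
theorem modF868_eq_of_test (μ : Measure (Adl K)) [μ.IsAddHaarMeasure] (x : (Adl K)ˣ)
    (S : Set (Adl K)) (h0 : μ S ≠ 0) (h1 : μ S ≠ ⊤) (a : ℝ≥0)
    (h : μ ((fun y : Adl K => (x : Adl K) * y) '' S) = (a : ℝ≥0∞) * μ S) :
    modF868 μ x = a := by
  rw [measure_image_mul868] at h
  have := (ENNReal.mul_left_inj h0 h1).mp h
  exact_mod_cast this

/-- A test set exists. -/
theorem exists_test868 (μ : Measure (Adl K)) [μ.IsAddHaarMeasure] :
    ∃ S : Set (Adl K), μ S ≠ 0 ∧ μ S ≠ ⊤ := by
  obtain ⟨S, hS, h0⟩ := exists_compact_mem_nhds (0 : Adl K)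
  refine ⟨S, ?_, hS.measure_lt_top.ne⟩
  exact (Measure.measure_pos_of_mem_nhds μ h0).ne'

theorem modF868_mul (μ : Measure (Adl K)) [μ.IsAddHaarMeasure] (x y : (Adl K)ˣ) :
    modF868 μ (x * y) = modF868 μ x * modF868 μ y := by
  obtain ⟨S, h0, h1⟩ := exists_test868 μ
  refine modF868_eq_of_test μ (x * y) S h0 h1 _ ?_
  have : (fun z : Adl K => ((x * y : (Adl K)ˣ) : Adl K) * z) '' S
      = (fun z : Adl K => (x : Adl K) * z) '' ((fun z : Adl K => (y : Adl K) * z) '' S) := by
    rw [Set.image_image]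
    refine Set.image_congr' fun z => ?_
    simp [mul_assoc]
  rw [this, measure_image_mul868, measure_image_mul868]
  push_cast
  ring

theorem modF868_one (μ : Measure (Adl K)) [μ.IsAddHaarMeasure] :
    modF868 μ (1 : (Adl K)ˣ) = 1 := by
  obtain ⟨S, h0, h1⟩ := exists_test868 μ
  refine modF868_eq_of_test μ 1 S h0 h1 _ ?_
  simp

theorem modF868_pow (μ : Measure (Adl K)) [μ.IsAddHaarMeasure] (x : (Adl K)ˣ) (n : ℕ) :
    modF868 μ (x ^ n) = modF868 μ x ^ n := by
  induction n with
  | zero => simp [modF868_one]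
  | succ n ih => rw [pow_succ, modF868_mul, ih, pow_succ]

theorem modF868_pos (μ : Measure (Adl K)) [μ.IsAddHaarMeasure] (x : (Adl K)ˣ) :
    0 < modF868 μ x := by
  have h : modF868 μ x * modF868 μ x⁻¹ = 1 := by
    rw [← modF868_mul, mul_inv_cancel, modF868_one]
  rw [pos_iff_ne_zero]
  intro h0
  rw [h0, zero_mul] at h
  exact zero_ne_one h

end Measure

/-! ## The lattice argument: the module of a principal idele is `1` -/

theorem countable_princ868 : Countable (princ K) := by
  haveI : Countable K := Finsupp.Countable.of_moduleFinite (R := ℚ) (M := K)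
  have : (princ K : Set (Adl K)) = Set.range (algebraMap K (Adl K)) := by
    ext x
    simp [princ]
  have hc : (princ K : Set (Adl K)).Countable := by
    rw [this]
    exact Set.countable_range _
  exact hc.to_subtype

/-- Multiplication by `ξ⁻¹` on the principal adeles. -/
def princScale868 (ξ : Kˣ) : princ K → princ K := fun g =>
  ⟨algebraMap K (Adl K) ((ξ⁻¹ : Kˣ) : K) * (g : Adl K), by
    obtain ⟨η, hη⟩ := g.2
    refine ⟨((ξ⁻¹ : Kˣ) : K) * η, ?_⟩
    simp only [RingHom.toAddMonoidHom_eq_coe, AddMonoidHom.coe_coe] at hη ⊢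
    rw [map_mul, hη]⟩

theorem princScale868_bijective (ξ : Kˣ) : Function.Bijective (princScale868 K ξ) := by
  refine Function.bijective_iff_has_inverse.mpr ⟨princScale868 K ξ⁻¹, ?_, ?_⟩
  · intro g
    apply Subtype.ext
    simp only [princScale868, inv_inv]
    rw [← mul_assoc, ← map_mul]
    simp
  · intro g
    apply Subtype.ext
    simp only [princScale868, inv_inv]
    rw [← mul_assoc, ← map_mul]
    simp

section Lattice

variable {K}
variable [MeasurableSpace (Adl K)] [BorelSpace (Adl K)] [LocallyCompactSpace (Adl K)]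
  [SecondCountableTopology (Adl K)]

/-- **Product formula, measure form.**  If `K` has a fundamental domain of finite positive
measure in `𝔸_K`, the module of a principal idele is `1`. -/
theorem modF868_ratUnit (μ : Measure (Adl K)) [μ.IsAddHaarMeasure]
    (D : Set (Adl K)) (hDm : MeasurableSet D) (hD : IsAddFundamentalDomain (princ K) D μ)
    (hpos : 0 < μ D) (hfin : μ D < ⊤) (ξ : Kˣ) :
    modF868 μ (ratUnit K ξ) = 1 := by
  haveI := countable_princ868 K
  refine modF868_eq_of_test μ _ D hpos.ne' hfin.ne 1 ?_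
  rw [image_mul_eq_preimage868]
  set φ : Adl K ≃ₜ+ Adl K := mulCAE868 K (ratUnit K ξ)⁻¹ with hφ
  have hqmp : Measure.QuasiMeasurePreserving φ μ μ := by
    refine ⟨φ.continuous.measurable, ?_⟩
    have := map_eq_modF868 μ (ratUnit K ξ)
    rw [← hφ] at this
    rw [this]
    exact Measure.smul_absolutelyContinuous
  have hD' : IsAddFundamentalDomain (princ K) (φ ⁻¹' D) μ := by
    refine hD.preimage_of_equiv hqmp (princScale868_bijective K ξ⁻¹) ?_
    intro g x
    change φ (princScale868 K ξ⁻¹ g +ᵥ x) = g +ᵥ φ x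
    simp only [hφ, mulCAE868_apply, princScale868, AddSubgroup.vadd_def, vadd_eq_add, mul_add,
      inv_inv]
    congr 1
    rw [← mul_assoc]
    have : (((ratUnit K ξ)⁻¹ : (Adl K)ˣ) : Adl K) * algebraMap K (Adl K) (ξ : K) = 1 := by
      have h1 : (algebraMap K (Adl K) (ξ : K)) = ((ratUnit K ξ : (Adl K)ˣ) : Adl K) := rfl
      rw [h1]
      simp
    rw [this, one_mul]
  rw [hD'.measure_eq hD]
  simp

end Lattice

end Fermat.Agent.LT.T1.H868

end
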