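import Mathlib
import Fermat.Agent.LT.T1.Spec
import Fermat.Agent.LT.H11.LC
import Fermat.Agent.LT.H11.SC

/-!
# Row LT, tower T1, shared core HAAR-SCALE, part B (helper868)

OFF-MAIN.  The Haar measure of the boxes `{‖y_w‖ ≤ r_w at every infinite w} × 𝒪̂` of `𝔸_K`:
`μ (box r) = ∏_w r_w ^ mult w * μ (box 1)` and `0 < μ (box 1) < ∞`, for every Haar measure `μ`.
-/

set_option autoImplicit false
set_option linter.style.haveILetI false
set_option linter.unusedVariables false
set_option linter.unusedSectionVars false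

open IsDedekindDomain NumberField MeasureTheory
open scoped ENNReal NNReal

noncomputable section

namespace Fermat.Agent.LT.T1.H868

open Fermat.Agent.LT.H556.A0

/-! ## Closed balls in a space isometric to a finite dimensional real normed space -/

theorem ball_scale_of_isometry868 {X E : Type*} [NormedAddCommGroup X] [MeasurableSpace X]
    [BorelSpace X] [NormedAddCommGroup E] [NormedSpace ℝ E] [MeasurableSpace E] [BorelSpace E]
    [FiniteDimensional ℝ E] (e : X ≃ₜ+ E) (he : Isometry e) (ρ : Measure X)
    [ρ.IsAddHaarMeasure] {r : ℝ} (hr : 0 ≤ r) :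
    ρ (Metric.closedBall 0 r)
        = ENNReal.ofReal (r ^ Module.finrank ℝ E) * ρ (Metric.closedBall 0 1) ∧
      0 < ρ (Metric.closedBall 0 1) ∧ ρ (Metric.closedBall 0 1) < ⊤ := by
  haveI : (Measure.map e ρ).IsAddHaarMeasure := e.isAddHaarMeasure_map ρ
  have key : ∀ t : ℝ, Measure.map e ρ (Metric.closedBall 0 t) = ρ (Metric.closedBall 0 t) := by
    intro t
    have hc : Continuous (e : X → E) := e.continuous
    have h1 : Measure.map e ρ (Metric.closedBall 0 t) = ρ (e ⁻¹' Metric.closedBall 0 t) :=
      Measure.map_apply hc.measurable Metric.isClosed_closedBall.measurableSet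
    rw [h1]
    have h0 : (0 : E) = e 0 := (map_zero e).symm
    rw [h0, he.preimage_closedBall]
  refine ⟨?_, ?_, ?_⟩
  · rw [← key r, ← key 1]
    exact Measure.addHaar_closedBall' (Measure.map e ρ) 0 hr
  · rw [← key 1]
    exact Metric.measure_closedBall_pos _ _ one_pos
  · rw [← key 1]
    exact measure_closedBall_lt_top

variable (K : Type) [Field K] [NumberField K]

/-- Additive homeomorphism of the completion at a real place onto `ℝ`. -/
def caeReal868 {w : InfinitePlace K} (hw : w.IsReal) : w.Completion ≃ₜ+ ℝ :=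
  { (InfinitePlace.Completion.ringEquivRealOfIsReal hw).toAddEquiv with
    continuous_toFun := (InfinitePlace.Completion.isometryEquivRealOfIsReal hw).continuous
    continuous_invFun := (InfinitePlace.Completion.isometryEquivRealOfIsReal hw).symm.continuous }

/-- Additive homeomorphism of the completion at a complex place onto `ℂ`. -/
def caeComplex868 {w : InfinitePlace K} (hw : w.IsComplex) : w.Completion ≃ₜ+ ℂ :=
  { (InfinitePlace.Completion.ringEquivComplexOfIsComplex hw).toAddEquiv with
    continuous_toFun := (InfinitePlace.Completion.isometryEquivComplexOfIsComplex hw).continuous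
    continuous_invFun :=
      (InfinitePlace.Completion.isometryEquivComplexOfIsComplex hw).symm.continuous }

/-- **Closed balls in the completion at an infinite place.** -/
theorem ball_scale_inf868 (w : InfinitePlace K) [MeasurableSpace w.Completion]
    [BorelSpace w.Completion] (ρ : Measure w.Completion) [ρ.IsAddHaarMeasure] {r : ℝ}
    (hr : 0 ≤ r) :
    ρ (Metric.closedBall 0 r) = ENNReal.ofReal (r ^ w.mult) * ρ (Metric.closedBall 0 1) ∧
      0 < ρ (Metric.closedBall 0 1) ∧ ρ (Metric.closedBall 0 1) < ⊤ := by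
  by_cases hw : w.IsReal
  · have h := ball_scale_of_isometry868 (caeReal868 K hw)
      (InfinitePlace.Completion.isometryEquivRealOfIsReal hw).isometry ρ hr
    have hm : w.mult = 1 := by simp [InfinitePlace.mult, hw]
    simpa [hm] using h
  · have hc : w.IsComplex := InfinitePlace.not_isReal_iff_isComplex.1 hw
    have h := ball_scale_of_isometry868 (caeComplex868 K hc)
      (InfinitePlace.Completion.isometryEquivComplexOfIsComplex hc).isometry ρ hr
    have hm : w.mult = 2 := by simp [InfinitePlace.mult, hw]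
    rw [Complex.finrank_real_complex] at h
    simpa [hm] using h

/-! ## The boxes of `𝔸_K` -/

/-- The integral finite adeles `𝒪̂ = ∏_v 𝒪_v`. -/
def ohat868 : Set (FiniteAdeleRing (𝓞 K) K) :=
  {z | ∀ v : HeightOneSpectrum (𝓞 K), z v ∈ v.adicCompletionIntegers K}

/-- The box `{‖a_w‖ ≤ r_w at every infinite place} × 𝒪̂`. -/
def box868 (r : InfinitePlace K → ℝ) : Set (Adl K) :=
  {a | (∀ w : InfinitePlace K, ‖a.1 w‖ ≤ r w) ∧
    ∀ v : HeightOneSpectrum (𝓞 K), a.2 v ∈ v.adicCompletionIntegers K}

theorem ohat868_eq_range :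
    ohat868 K = Set.range (RestrictedProduct.structureMap
      (fun v : HeightOneSpectrum (𝓞 K) => v.adicCompletion K)
      (fun v : HeightOneSpectrum (𝓞 K) => (v.adicCompletionIntegers K : Set (v.adicCompletion K)))
      Filter.cofinite) := by
  rw [RestrictedProduct.range_structureMap]
  rfl

theorem isOpen_ohat868 : IsOpen (ohat868 K) := by
  rw [ohat868_eq_range]
  exact (RestrictedProduct.isOpenEmbedding_structureMap
    (fun v : HeightOneSpectrum (𝓞 K) => Valued.isOpen_valuationSubring _)).isOpen_range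

theorem isCompact_ohat868 : IsCompact (ohat868 K) := by
  rw [ohat868_eq_range]
  haveI hcomp : CompactSpace ((v : HeightOneSpectrum (𝓞 K)) →
      (v.adicCompletionIntegers K : Set (v.adicCompletion K))) :=
    @Pi.compactSpace _ _ _ (fun v => Fermat.Agent.LT.H11.LC.compactSpace_integers_h11 K v)
  exact @isCompact_range _ _ _ _ hcomp _ (RestrictedProduct.isOpenEmbedding_structureMap
    (fun v : HeightOneSpectrum (𝓞 K) => Valued.isOpen_valuationSubring _)).continuous

theorem ohat868_nonempty : (ohat868 K).Nonempty :=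
  ⟨0, fun v => by
    have : (0 : FiniteAdeleRing (𝓞 K) K) v = 0 := rfl
    rw [this]
    exact zero_mem _⟩

/-- The box as a product set. -/
def boxP868 (r : InfinitePlace K → ℝ) :
    Set (((w : InfinitePlace K) → w.Completion) × FiniteAdeleRing (𝓞 K) K) :=
  (Set.univ.pi fun w : InfinitePlace K => Metric.closedBall (0 : w.Completion) (r w))
    ×ˢ ohat868 K

theorem box868_eq (r : InfinitePlace K → ℝ) : box868 K r = boxP868 K r := by
  ext a
  constructor
  · rintro ⟨h1, h2⟩
    exact ⟨fun w _ => by simpa using h1 w, h2⟩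
  · rintro ⟨h1, h2⟩
    exact ⟨fun w => by simpa using h1 w (Set.mem_univ w), h2⟩

section Measure

variable {K}

/-- The measure of the boxes, on the product type with the product σ-algebra. -/
theorem measure_boxP868 [mW : ∀ w : InfinitePlace K, MeasurableSpace w.Completion]
    [∀ w : InfinitePlace K, BorelSpace w.Completion]
    [mF : MeasurableSpace (FiniteAdeleRing (𝓞 K) K)] [BorelSpace (FiniteAdeleRing (𝓞 K) K)]
    (μ : Measure (((w : InfinitePlace K) → w.Completion) × FiniteAdeleRing (𝓞 K) K))
    [μ.IsAddHaarMeasure] :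
    (0 < μ (boxP868 K fun _ => 1) ∧ μ (boxP868 K fun _ => 1) < ⊤) ∧
      ∀ r : InfinitePlace K → ℝ, (∀ w, 0 ≤ r w) →
        μ (boxP868 K r) = ENNReal.ofReal (∏ w, r w ^ w.mult) * μ (boxP868 K fun _ => 1) := by
  -- topological instances
  haveI : ∀ w : InfinitePlace K, SecondCountableTopology w.Completion :=
    fun w => Fermat.Agent.LT.H11.SC.secondCountableTopology_infCompletion_h11 K w
  haveI : SecondCountableTopology (FiniteAdeleRing (𝓞 K) K) :=
    Fermat.Agent.LT.H11.SC.secondCountableTopology_finiteAdeleRing_h11 K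
  haveI : LocallyCompactSpace (FiniteAdeleRing (𝓞 K) K) :=
    Fermat.Agent.LT.H11.LC.locallyCompactSpace_finiteAdeleRing_h11 K
  -- the reference Haar measure
  set ρw : ∀ w : InfinitePlace K, Measure w.Completion := fun w => Measure.addHaar with hρw
  set ρF : Measure (FiniteAdeleRing (𝓞 K) K) := Measure.addHaar with hρF
  set ρP : Measure ((w : InfinitePlace K) → w.Completion) := Measure.pi ρw with hρP
  set ρ : Measure (((w : InfinitePlace K) → w.Completion) × FiniteAdeleRing (𝓞 K) K) :=
    ρP.prod ρF with hρ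
  haveI : ρ.IsAddHaarMeasure := by
    rw [hρ]
    infer_instance
  have hμ : μ = μ.addHaarScalarFactor ρ • ρ := Measure.isAddLeftInvariant_eq_smul μ ρ
  have hc : 0 < μ.addHaarScalarFactor ρ :=
    Measure.addHaarScalarFactor_pos_of_isAddHaarMeasure μ ρ
  set c := μ.addHaarScalarFactor ρ with hcdef
  -- the measure of a box for the reference measure
  have hbox : ∀ r : InfinitePlace K → ℝ, μ (boxP868 K r)
      = (c : ℝ≥0∞) * ((∏ w, ρw w (Metric.closedBall 0 (r w))) * ρF (ohat868 K)) := by
    intro r
    conv_lhs => rw [hμ]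
    rw [Measure.smul_apply, hρ, boxP868, Measure.prod_prod, hρP, Measure.pi_pi]
    simp [ENNReal.smul_def]
  have hF0 : 0 < ρF (ohat868 K) := (isOpen_ohat868 K).measure_pos ρF (ohat868_nonempty K)
  have hF1 : ρF (ohat868 K) < ⊤ := (isCompact_ohat868 K).measure_lt_top
  have hb : ∀ w : InfinitePlace K, 0 < ρw w (Metric.closedBall 0 1) ∧
      ρw w (Metric.closedBall 0 1) < ⊤ :=
    fun w => (ball_scale_inf868 K w (ρw w) zero_le_one).2
  refine ⟨⟨?_, ?_⟩, ?_⟩
  · rw [hbox]
    refine ENNReal.mul_pos (by exact_mod_cast hc.ne') (mul_ne_zero ?_ hF0.ne')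
    exact Finset.prod_ne_zero_iff.2 fun w _ => (hb w).1.ne'
  · rw [hbox]
    refine ENNReal.mul_lt_top ENNReal.coe_lt_top (ENNReal.mul_lt_top ?_ hF1)
    exact ENNReal.prod_lt_top fun w _ => (hb w).2
  · intro r hr
    rw [hbox, hbox]
    have h1 : (∏ w, ρw w (Metric.closedBall 0 (r w)))
        = (∏ w : InfinitePlace K, ENNReal.ofReal (r w ^ w.mult))
          * ∏ w, ρw w (Metric.closedBall 0 1) := by
      rw [← Finset.prod_mul_distrib]
      exact Finset.prod_congr rfl fun w _ => (ball_scale_inf868 K w (ρw w) (hr w)).1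
    rw [h1, ENNReal.ofReal_prod_of_nonneg fun w _ => pow_nonneg (hr w) _]
    ring

/-- **The measure of the boxes.**  For every Haar measure `μ` of `𝔸_K`:
`0 < μ (box 1) < ∞` and `μ (box r) = ∏_w r_w ^ mult w * μ (box 1)`. -/
theorem measure_box868 [mA : MeasurableSpace (Adl K)] [BorelSpace (Adl K)]
    (μ : Measure (Adl K)) [hμ : μ.IsAddHaarMeasure] :
    (0 < μ (box868 K fun _ => 1) ∧ μ (box868 K fun _ => 1) < ⊤) ∧
      ∀ r : InfinitePlace K → ℝ, (∀ w, 0 ≤ r w) →
        μ (box868 K r) = ENNReal.ofReal (∏ w, r w ^ w.mult) * μ (box868 K fun _ => 1) := by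
  haveI : ∀ w : InfinitePlace K, SecondCountableTopology w.Completion :=
    fun w => Fermat.Agent.LT.H11.SC.secondCountableTopology_infCompletion_h11 K w
  haveI : SecondCountableTopology (FiniteAdeleRing (𝓞 K) K) :=
    Fermat.Agent.LT.H11.SC.secondCountableTopology_finiteAdeleRing_h11 K
  letI mW : ∀ w : InfinitePlace K, MeasurableSpace w.Completion := fun w => borel _
  haveI : ∀ w : InfinitePlace K, BorelSpace w.Completion := fun w => ⟨rfl⟩
  letI mF : MeasurableSpace (FiniteAdeleRing (𝓞 K) K) := borel _
  haveI : BorelSpace (FiniteAdeleRing (𝓞 K) K) := ⟨rfl⟩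
  have hm : mA = (inferInstance :
      MeasurableSpace (((w : InfinitePlace K) → w.Completion) × FiniteAdeleRing (𝓞 K) K)) := by
    have h1 : mA = borel (Adl K) := BorelSpace.measurable_eq
    rw [h1]
    exact (BorelSpace.measurable_eq
      (α := ((w : InfinitePlace K) → w.Completion) × FiniteAdeleRing (𝓞 K) K)).symm
  subst hm
  simp only [box868_eq]
  exact @measure_boxP868 K _ _ mW _ mF _ μ hμ

end Measure

end Fermat.Agent.LT.T1.H868

end
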