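import Mathlib
import Fermat.Agent.LT.T1.Spec
import Fermat.Agent.LT.T1.H868.HaarScaleA
import Fermat.Agent.LT.T1.H868.HaarScaleB

/-!
# Row LT, tower T1, shared core HAAR-SCALE, part C (helper868)

OFF-MAIN.  The module of an idele which is a unit at every finite place.
-/

set_option autoImplicit false
set_option linter.style.haveILetI false
set_option linter.unusedVariables false
set_option linter.unusedSectionVars false

open IsDedekindDomain NumberField MeasureTheory
open scoped ENNReal NNReal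

noncomputable section

namespace Fermat.Agent.LT.T1.H868

open Fermat.Agent.LT.H556.A0

variable (K : Type) [Field K] [NumberField K]

/-! ## Components of ideles -/

theorem inf_mul_inv868 (y : (Adl K)ˣ) (w : InfinitePlace K) :
    ((y⁻¹ : (Adl K)ˣ) : Adl K).1 w * (y : Adl K).1 w = 1 := by
  have h : ((y⁻¹ : (Adl K)ˣ) : Adl K) * (y : Adl K) = 1 := y.inv_mul
  exact congrArg (fun z : Adl K => z.1 w) h

theorem fin_mul_inv868 (y : (Adl K)ˣ) (v : HeightOneSpectrum (𝓞 K)) :
    ((y⁻¹ : (Adl K)ˣ) : Adl K).2 v * (y : Adl K).2 v = 1 := by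
  have h : ((y⁻¹ : (Adl K)ˣ) : Adl K) * (y : Adl K) = 1 := y.inv_mul
  exact congrArg (fun z : Adl K => z.2 v) h

theorem inf_ne_zero868 (y : (Adl K)ˣ) (w : InfinitePlace K) : (y : Adl K).1 w ≠ 0 :=
  right_ne_zero_of_mul_eq_one (inf_mul_inv868 K y w)

theorem fin_ne_zero868 (y : (Adl K)ˣ) (v : HeightOneSpectrum (𝓞 K)) : (y : Adl K).2 v ≠ 0 :=
  right_ne_zero_of_mul_eq_one (fin_mul_inv868 K y v)

/-- The idele `u` is a unit at every finite place. -/
def IsFinUnit868 (u : (Adl K)ˣ) : Prop :=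
  ∀ v : HeightOneSpectrum (𝓞 K), Valued.v ((u : Adl K).2 v) = 1

theorem isFinUnit868_inv {u : (Adl K)ˣ} (hu : IsFinUnit868 K u) (v : HeightOneSpectrum (𝓞 K)) :
    Valued.v (((u⁻¹ : (Adl K)ˣ) : Adl K).2 v) = 1 := by
  have h := congrArg Valued.v (fin_mul_inv868 K u v)
  rw [map_mul, hu v, mul_one, map_one] at h
  exact h

/-- Multiplication by an idele which is a unit at the finite places maps the unit box onto the
box of radii `‖u_w‖`. -/
theorem image_box868 {u : (Adl K)ˣ} (hu : IsFinUnit868 K u) :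
    (fun y : Adl K => (u : Adl K) * y) '' (box868 K fun _ => 1)
      = box868 K fun w => ‖(u : Adl K).1 w‖ := by
  rw [image_mul_eq_preimage868]
  ext a
  have hI : ∀ w : InfinitePlace K, ‖(((u⁻¹ : (Adl K)ˣ) : Adl K) * a).1 w‖
      = ‖(u : Adl K).1 w‖⁻¹ * ‖a.1 w‖ := by
    intro w
    have h1 : (((u⁻¹ : (Adl K)ˣ) : Adl K) * a).1 w
        = ((u⁻¹ : (Adl K)ˣ) : Adl K).1 w * a.1 w := rfl
    have h2 : ‖((u⁻¹ : (Adl K)ˣ) : Adl K).1 w‖ = ‖(u : Adl K).1 w‖⁻¹ := by
      have h := congrArg norm (inf_mul_inv868 K u w)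
      rw [norm_mul, norm_one] at h
      exact eq_inv_of_mul_eq_one_left h
    rw [h1, norm_mul, h2]
  have hF : ∀ v : HeightOneSpectrum (𝓞 K), Valued.v ((((u⁻¹ : (Adl K)ˣ) : Adl K) * a).2 v)
      = Valued.v (a.2 v) := by
    intro v
    have h1 : (((u⁻¹ : (Adl K)ˣ) : Adl K) * a).2 v
        = ((u⁻¹ : (Adl K)ˣ) : Adl K).2 v * a.2 v := rfl
    rw [h1, map_mul, isFinUnit868_inv K hu v, one_mul]
  simp only [Set.mem_preimage, mulCAE868_apply, box868, Set.mem_ofPred_eq,
    HeightOneSpectrum.mem_adicCompletionIntegers, hI, hF]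
  refine and_congr_left fun _ => forall_congr' fun w => ?_
  have hpos : 0 < ‖(u : Adl K).1 w‖ := norm_pos_iff.mpr (inf_ne_zero868 K u w)
  rw [inv_mul_le_iff₀ hpos, mul_one]

section Measure

variable {K}
variable [MeasurableSpace (Adl K)] [BorelSpace (Adl K)] [LocallyCompactSpace (Adl K)]
  [SecondCountableTopology (Adl K)]

/-- **(E1)** the module of an idele which is a unit at every finite place. -/
theorem modF868_of_isFinUnit (μ : Measure (Adl K)) [μ.IsAddHaarMeasure] {u : (Adl K)ˣ}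
    (hu : IsFinUnit868 K u) :
    (modF868 μ u : ℝ) = ∏ w : InfinitePlace K, ‖(u : Adl K).1 w‖ ^ w.mult := by
  obtain ⟨⟨h0, h1⟩, hr⟩ := measure_box868 μ
  have hnn : 0 ≤ ∏ w : InfinitePlace K, ‖(u : Adl K).1 w‖ ^ w.mult :=
    Finset.prod_nonneg fun w _ => pow_nonneg (norm_nonneg _) _
  have key := modF868_eq_of_test μ u (box868 K fun _ => 1) h0.ne' h1.ne
    (Real.toNNReal (∏ w : InfinitePlace K, ‖(u : Adl K).1 w‖ ^ w.mult)) (by
      rw [image_box868 K hu]
      exact hr (fun w => ‖(u : Adl K).1 w‖) (fun w => norm_nonneg _))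
  rw [key, Real.coe_toNNReal _ hnn]

end Measure

end Fermat.Agent.LT.T1.H868

end
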