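import Mathlib
import Fermat.Agent.LT.T1.Spec

/-!
# Row LT, tower T1, shared core HAAR-SCALE, part D (helper868)

OFF-MAIN.  Finiteness of the class group in idelic form: for every idele `x` of a number field
there are `h ≥ 1` and `ξ ∈ Kˣ` with `|x_v|_v ^ h = |ξ|_v` at EVERY finite place `v`
(the fractional ideal of `x` has a principal power).
-/

set_option autoImplicit false
set_option linter.style.haveILetI false
set_option linter.unusedVariables false
set_option linter.unusedSectionVars false

open IsDedekindDomain NumberField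
open scoped nonZeroDivisors

noncomputable section

namespace Fermat.Agent.LT.T1.H868

open Fermat.Agent.LT.H556.A0

section Dedekind

variable {R : Type*} [CommRing R] [IsDedekindDomain R] (K : Type*) [Field K] [Algebra R K]
  [IsFractionRing R K] (v : HeightOneSpectrum R)

theorem count_spanSingleton_algebraMap868 {r : R} (hr : r ≠ 0) :
    FractionalIdeal.count K v (FractionalIdeal.spanSingleton R⁰ (algebraMap R K r))
      = - WithZero.log (v.intValuation r) := by
  have hs : Ideal.span {r} ≠ (0 : Ideal R) := by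
    rw [Ne, Ideal.zero_eq_bot, Ideal.span_singleton_eq_bot]
    exact hr
  rw [← FractionalIdeal.coeIdeal_span_singleton, FractionalIdeal.count_coe K v hs,
    HeightOneSpectrum.intValuation_if_neg v hr, WithZero.log_exp, neg_neg]

/-- The multiplicity of `v` in a principal fractional ideal is the (additive) valuation. -/
theorem count_spanSingleton868 {ξ : K} (hξ : ξ ≠ 0) :
    FractionalIdeal.count K v (FractionalIdeal.spanSingleton R⁰ ξ)
      = - WithZero.log (v.valuation K ξ) := by
  obtain ⟨a, b, hb, rfl⟩ := IsFractionRing.div_surjective R ξ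
  have hb0 : b ≠ 0 := nonZeroDivisors.ne_zero hb
  have ha0 : a ≠ 0 := by
    rintro rfl
    simp at hξ
  have hA : FractionalIdeal.spanSingleton R⁰ (algebraMap R K a) ≠ 0 := by
    rw [Ne, FractionalIdeal.spanSingleton_eq_zero_iff]
    exact fun h => ha0 ((IsFractionRing.injective R K) (by rw [h, map_zero]))
  have hB : FractionalIdeal.spanSingleton R⁰ (algebraMap R K b) ≠ 0 := by
    rw [Ne, FractionalIdeal.spanSingleton_eq_zero_iff]
    exact fun h => hb0 ((IsFractionRing.injective R K) (by rw [h, map_zero]))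
  have hsp : FractionalIdeal.spanSingleton R⁰ (algebraMap R K a / algebraMap R K b)
      = FractionalIdeal.spanSingleton R⁰ (algebraMap R K a)
        * (FractionalIdeal.spanSingleton R⁰ (algebraMap R K b))⁻¹ := by
    rw [FractionalIdeal.spanSingleton_inv, FractionalIdeal.spanSingleton_mul_spanSingleton,
      div_eq_mul_inv]
  rw [hsp, FractionalIdeal.count_mul K v hA (inv_ne_zero hB), FractionalIdeal.count_inv,
    count_spanSingleton_algebraMap868 K v ha0, count_spanSingleton_algebraMap868 K v hb0,
    map_div₀, HeightOneSpectrum.valuation_of_algebraMap, HeightOneSpectrum.valuation_of_algebraMap,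
    WithZero.log_div (HeightOneSpectrum.intValuation_ne_zero v a ha0)
      (HeightOneSpectrum.intValuation_ne_zero v b hb0)]
  ring

end Dedekind

variable (K : Type) [Field K] [NumberField K]

/-- **Finiteness of the class group, idelic form.** -/
theorem exists_pow_eq_principal868 (x : (Adl K)ˣ) :
    ∃ (h : ℕ) (ξ : Kˣ), 0 < h ∧ ∀ v : HeightOneSpectrum (𝓞 K),
      Valued.v ((x : Adl K).2 v) ^ h = Valued.v ((ratUnit K ξ : Adl K).2 v) := by
  classical
  have hunit : IsUnit ((x : Adl K).2) := (Prod.isUnit_iff.mp x.isUnit).2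
  obtain ⟨hne, hfin⟩ := FiniteAdeleRing.isUnit_iff.mp hunit
  have hv0 : ∀ v : HeightOneSpectrum (𝓞 K), Valued.v ((x : Adl K).2 v) ≠ 0 :=
    fun v => (Valuation.ne_zero_iff _).mpr (hne v)
  -- the exponents
  set e : HeightOneSpectrum (𝓞 K) → ℤ := fun v => - WithZero.log (Valued.v ((x : Adl K).2 v))
    with he
  have hefin : ∀ᶠ v : HeightOneSpectrum (𝓞 K) in Filter.cofinite, e v = 0 := by
    filter_upwards [hfin] with v hv
    simp [he, hv]
  -- the fractional ideal of `x`
  set J : FractionalIdeal (𝓞 K)⁰ K :=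
    ∏ᶠ v : HeightOneSpectrum (𝓞 K), (v.asIdeal : FractionalIdeal (𝓞 K)⁰ K) ^ e v with hJ
  have hJ0 : J ≠ 0 := by
    refine finprod_induction (fun I : FractionalIdeal (𝓞 K)⁰ K => I ≠ 0) one_ne_zero
      (fun _ _ => mul_ne_zero) fun v => ?_
    exact zpow_ne_zero _ (FractionalIdeal.coeIdeal_ne_zero.mpr v.ne_bot)
  have hcount : ∀ v : HeightOneSpectrum (𝓞 K), FractionalIdeal.count K v J = e v :=
    fun v => FractionalIdeal.count_finprod K v e hefin
  -- a power is principal
  set h : ℕ := Fintype.card (ClassGroup (𝓞 K)) with hh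
  have hpos : 0 < h := Fintype.card_pos
  have h1 : ClassGroup.mk K ((Units.mk0 J hJ0) ^ h) = 1 := by
    rw [map_pow]
    exact pow_card_eq_one
  obtain ⟨ξ, hξ⟩ := (FractionalIdeal.isPrincipal_iff _).mp (ClassGroup.mk_eq_one_iff.mp h1)
  have hξ' : J ^ h = FractionalIdeal.spanSingleton (𝓞 K)⁰ ξ := by
    rw [← hξ]
    simp
  have hξ0 : ξ ≠ 0 := by
    rintro rfl
    rw [FractionalIdeal.spanSingleton_zero] at hξ'
    exact pow_ne_zero h hJ0 hξ'
  refine ⟨h, Units.mk0 ξ hξ0, hpos, fun v => ?_⟩
  have hval : Valued.v ((ratUnit K (Units.mk0 ξ hξ0) : Adl K).2 v)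
      = (HeightOneSpectrum.valuation K v) ξ :=
    HeightOneSpectrum.valuedAdicCompletion_eq_valuation' v ξ
  rw [hval]
  have hc := count_spanSingleton868 K v hξ0
  rw [← hξ', FractionalIdeal.count_pow, hcount v] at hc
  -- `h * e v = - log (val ξ)`
  have hvξ : (HeightOneSpectrum.valuation K v) ξ ≠ 0 := (Valuation.ne_zero_iff _).mpr hξ0
  rw [← WithZero.exp_log hvξ, ← WithZero.exp_log (hv0 v), ← WithZero.exp_nsmul]
  congr 1
  simp only [he] at hc
  have : WithZero.log ((HeightOneSpectrum.valuation K v) ξ)
      = (h : ℤ) * WithZero.log (Valued.v ((x : Adl K).2 v)) := by linarith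
  rw [this]
  simp

end Fermat.Agent.LT.T1.H868

end
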