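import Mathlib
import Fermat.Agent.LT.T1.Spec
import Fermat.Agent.LT.T1.H868.HaarScaleA
import Fermat.Agent.LT.T1.H868.HaarScaleB
import Fermat.Agent.LT.T1.H868.HaarScaleC
import Fermat.Agent.LT.T1.H868.HaarScaleD

/-!
# Row LT, tower T1, shared core HAAR-SCALE (helper868): the module of an idele is `adNorm`

OFF-MAIN.  Vocabulary: `LT/H556/A0.lean` (66d3374a) and `LT/T1/Spec.lean` (e8ae48d6), byte-identical.

`haarScale868 : LocCompC K → AddFundDomC K → AdNormC K → HaarScaleC K`, where `HaarScaleC K` says: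
for every additive Haar measure `μ` of `𝔸_K`, every idele `x` and EVERY set `S`,
`μ (x S) = ‖x‖_𝔸 · μ S`.   (Weil, Basic Number Theory, IV §4; Cassels–Fröhlich II §16.)

Needed by T1.06 (Fujisaki), T1.14 (reduction), T1.17 (Siegel volume), T1.20 (elliptic tori).

Route (no index computation):
* (A) the module `modF868 μ x` exists, is multiplicative, is `1` on `Kˣ` (lattice argument);
* (B) boxes `{‖a_w‖ ≤ r_w} × 𝒪̂` have measure `∏ r_w^{mult w} · μ(unit box)` (uniqueness of Haar
  measure on `∏_w K_w × 𝔸_f`, `Measure.pi`, closed balls of `ℝ` and `ℂ`);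
* (C) hence the module of an idele which is a unit at all finite places is `∏_w ‖u_w‖^{mult w}`;
* (D) finiteness of the class group: `x ^ h = ξ · u`, `ξ ∈ Kˣ`, `u` a unit at all finite places;
* (E) `mod(x)^h = mod(u) = ‖u‖ = ‖x‖^h`.
-/

set_option autoImplicit false
set_option linter.style.haveILetI false
set_option linter.unusedVariables false
set_option linter.unusedSectionVars false

open IsDedekindDomain NumberField MeasureTheory
open scoped ENNReal NNReal

noncomputable section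

namespace Fermat.Agent.LT.T1.H868

open Fermat.Agent.LT.H556.A0

variable (K : Type) [Field K] [NumberField K]

/-- **HAAR-SCALE**: the module of the automorphism `y ↦ x y` of `𝔸_K` is `‖x‖_𝔸`. -/
def HaarScaleC : Prop :=
  letI : MeasurableSpace (Adl K) := borel (Adl K)
  ∀ μ : Measure (Adl K), μ.IsAddHaarMeasure → ∀ (x : (Adl K)ˣ) (S : Set (Adl K)),
    μ ((fun y : Adl K => (x : Adl K) * y) '' S) = ENNReal.ofReal (adNorm K (x : Adl K)) * μ S

/-- The component at a finite place as a ring homomorphism. -/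
def finHom868 (v : HeightOneSpectrum (𝓞 K)) : Adl K →+* v.adicCompletion K :=
  (RestrictedProduct.evalRingHom (fun v : HeightOneSpectrum (𝓞 K) => v.adicCompletion K) v).comp
    (RingHom.snd (InfiniteAdeleRing K) (FiniteAdeleRing (𝓞 K) K))

theorem finHom868_apply (v : HeightOneSpectrum (𝓞 K)) (a : Adl K) : finHom868 K v a = a.2 v := rfl

theorem norm_fin_eq_one868 (v : HeightOneSpectrum (𝓞 K)) (y : v.adicCompletion K)
    (hy : Valued.v y = 1) : ‖y‖ = 1 := by
  rw [le_antisymm_iff, Valued.toNormedField.norm_le_one_iff,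
    Valued.toNormedField.one_le_norm_iff, hy]
  exact ⟨le_rfl, le_rfl⟩

/-- `adNorm` of an idele which is a unit at the finite places. -/
theorem adNorm_of_isFinUnit868 {u : (Adl K)ˣ} (hu : IsFinUnit868 K u) :
    adNorm K (u : Adl K) = ∏ w : InfinitePlace K, ‖(u : Adl K).1 w‖ ^ w.mult := by
  unfold adNorm
  have h1 : (fun v : HeightOneSpectrum (𝓞 K) => ‖(u : Adl K).2 v‖) = fun _ => 1 :=
    funext fun v => norm_fin_eq_one868 K v _ (hu v)
  rw [h1, finprod_one, mul_one]

variable {K}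

theorem adNorm_one868 (hN : AdNormC K) : adNorm K ((1 : (Adl K)ˣ) : Adl K) = 1 := by
  have h := hN.2.1 1 1
  rw [mul_one] at h
  have hp := hN.1 1
  have h2 : adNorm K ((1 : (Adl K)ˣ) : Adl K) * (adNorm K ((1 : (Adl K)ˣ) : Adl K) - 1) = 0 := by
    rw [mul_sub, mul_one, ← h, sub_self]
  rcases mul_eq_zero.mp h2 with h3 | h3
  · exact absurd h3 hp.ne'
  · linarith

theorem adNorm_pow868 (hN : AdNormC K) (x : (Adl K)ˣ) (n : ℕ) :
    adNorm K ((x ^ n : (Adl K)ˣ) : Adl K) = adNorm K (x : Adl K) ^ n := by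
  induction n with
  | zero => simpa using adNorm_one868 hN
  | succ n ih => rw [pow_succ, hN.2.1, ih, pow_succ]

/-- **HAAR-SCALE.** -/
theorem haarScale868 (hLC : LocCompC K) (hFD : AddFundDomC K) (hN : AdNormC K) :
    HaarScaleC K := by
  letI : MeasurableSpace (Adl K) := borel (Adl K)
  haveI : BorelSpace (Adl K) := ⟨rfl⟩
  obtain ⟨⟨hlc, ht2, hsc⟩, -⟩ := hLC
  haveI := hlc
  haveI := ht2
  haveI := hsc
  intro μ hμ x S
  haveI := hμ
  rw [measure_image_mul868]
  congr 1
  -- the class group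
  obtain ⟨h, ξ, hpos, hv⟩ := exists_pow_eq_principal868 K x
  set u : (Adl K)ˣ := x ^ h * (ratUnit K ξ)⁻¹ with hu
  have hxu : x ^ h = u * ratUnit K ξ := by simp [hu]
  have hfu : IsFinUnit868 K u := by
    intro v
    have e1 : ((u : (Adl K)ˣ) : Adl K).2 v
        = (finHom868 K v (x : Adl K)) ^ h * finHom868 K v (((ratUnit K ξ)⁻¹ : (Adl K)ˣ) : Adl K) := by
      rw [← map_pow, ← map_mul]
      simp [hu, finHom868_apply]
    have e2 : Valued.v (finHom868 K v (((ratUnit K ξ)⁻¹ : (Adl K)ˣ) : Adl K))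
        * Valued.v ((ratUnit K ξ : Adl K).2 v) = 1 := by
      rw [← map_mul]
      have := fin_mul_inv868 K (ratUnit K ξ) v
      rw [finHom868_apply, this, map_one]
    rw [e1, map_mul, map_pow, finHom868_apply, hv v]
    rw [mul_comm]
    exact e2
  -- the fundamental domain
  obtain ⟨D, hDm, hD, -, hD0, hD1⟩ := hFD μ hμ
  have hξ1 : modF868 μ (ratUnit K ξ) = 1 := modF868_ratUnit μ D hDm hD hD0 hD1 ξ
  -- modules
  have hm : (modF868 μ x : ℝ) ^ h = adNorm K (x : Adl K) ^ h := by
    have a1 : modF868 μ x ^ h = modF868 μ u := by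
      rw [← modF868_pow, hxu, modF868_mul, hξ1, mul_one]
    have a2 : (modF868 μ u : ℝ) = adNorm K (u : Adl K) := by
      rw [modF868_of_isFinUnit μ hfu, adNorm_of_isFinUnit868 K hfu]
    have a3 : adNorm K (u : Adl K) * adNorm K (ratUnit K ξ : Adl K)
        = adNorm K (x : Adl K) ^ h := by
      rw [← hN.2.1, ← hxu, adNorm_pow868 hN]
    rw [hN.2.2.1 ξ, mul_one] at a3
    rw [← a3, ← a2, ← a1]
    push_cast
    rfl
  have hx : (modF868 μ x : ℝ) = adNorm K (x : Adl K) :=
    (pow_left_inj₀ (NNReal.coe_nonneg _) (hN.1 x).le hpos.ne').mp hm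
  rw [← hx, ENNReal.ofReal_coe_nnreal]

/-- The same for `Measure.map`. -/
theorem map_mul_eq868 (hLC : LocCompC K) (hFD : AddFundDomC K) (hN : AdNormC K) :
    letI : MeasurableSpace (Adl K) := borel (Adl K)
    ∀ μ : Measure (Adl K), μ.IsAddHaarMeasure → ∀ (x : (Adl K)ˣ),
      Measure.map (fun y : Adl K => (x : Adl K) * y) μ
        = ENNReal.ofReal (adNorm K ((x⁻¹ : (Adl K)ˣ) : Adl K)) • μ := by
  letI : MeasurableSpace (Adl K) := borel (Adl K)
  haveI : BorelSpace (Adl K) := ⟨rfl⟩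
  intro μ hμ x
  ext S hS
  have h1 : Measure.map (fun y : Adl K => (x : Adl K) * y) μ S
      = μ ((mulCAE868 K x) ⁻¹' S) :=
    (mulCAE868 K x).toHomeomorph.toMeasurableEquiv.map_apply S
  rw [h1, Measure.smul_apply, smul_eq_mul, ← haarScale868 hLC hFD hN μ hμ x⁻¹ S,
    image_mul_eq_preimage868, inv_inv]

end Fermat.Agent.LT.T1.H868

end
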