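import Mathlib
import Fermat.Agent.LT.T1.Spec
import Fermat.Agent.LT.T1.H868.HaarScale

/-!
# Row LT, tower T1: the adelic Minkowski lemma (helper868)

OFF-MAIN.  `minkowski868 : LocCompC K → AddFundDomC K → AdNormC K →
  ∃ C, ∀ x : (𝔸_K)ˣ, C < ‖x‖_𝔸 → ∃ ξ ∈ Kˣ, |ξ|_w ≤ |x_w| at every place`
(Cassels–Fröhlich II §16 Lemma; Weil BNT IV §4 Lemma 1), by Blichfeldt's theorem of Mathlib
(`exists_pair_mem_lattice_not_disjoint_vadd`) and HAAR-SCALE.
-/

set_option autoImplicit false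
set_option linter.style.haveILetI false
set_option linter.unusedVariables false
set_option linter.unusedSectionVars false

open IsDedekindDomain NumberField MeasureTheory
open scoped ENNReal NNReal

noncomputable section

namespace Fermat.Agent.LT.T1.H868

open Fermat.Agent.LT.H556.A0

variable (K : Type) [Field K] [NumberField K]

/-- The component at an infinite place as a ring homomorphism. -/
def infHom868 (w : InfinitePlace K) : Adl K →+* w.Completion :=
  (Pi.evalRingHom (fun v : InfinitePlace K => v.Completion) w).comp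
    (RingHom.fst (InfiniteAdeleRing K) (FiniteAdeleRing (𝓞 K) K))

theorem infHom868_apply (w : InfinitePlace K) (a : Adl K) : infHom868 K w a = a.1 w := rfl

/-- The idele box `{a : |a_w| ≤ t |x_w| at the infinite places, |a_v| ≤ |x_v| at the finite
places}`. -/
def ibox868 (t : ℝ) (x : (Adl K)ˣ) : Set (Adl K) :=
  {a | (∀ w : InfinitePlace K, ‖a.1 w‖ ≤ t * ‖(x : Adl K).1 w‖) ∧
    ∀ v : HeightOneSpectrum (𝓞 K), Valued.v (a.2 v) ≤ Valued.v ((x : Adl K).2 v)}

theorem norm_inf_inv868 (x : (Adl K)ˣ) (w : InfinitePlace K) :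
    ‖((x⁻¹ : (Adl K)ˣ) : Adl K).1 w‖ = ‖(x : Adl K).1 w‖⁻¹ := by
  have h := congrArg norm (inf_mul_inv868 K x w)
  rw [norm_mul, norm_one] at h
  exact eq_inv_of_mul_eq_one_left h

theorem val_fin_inv868 (x : (Adl K)ˣ) (v : HeightOneSpectrum (𝓞 K)) :
    Valued.v (((x⁻¹ : (Adl K)ˣ) : Adl K).2 v) = (Valued.v ((x : Adl K).2 v))⁻¹ := by
  have h := congrArg Valued.v (fin_mul_inv868 K x v)
  rw [map_mul, map_one] at h
  exact eq_inv_of_mul_eq_one_left h

theorem val_fin_ne_zero868 (x : (Adl K)ˣ) (v : HeightOneSpectrum (𝓞 K)) :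
    Valued.v ((x : Adl K).2 v) ≠ 0 :=
  (Valuation.ne_zero_iff _).mpr (fin_ne_zero868 K x v)

/-- `x · box(t) = ibox t x`. -/
theorem image_box_eq_ibox868 (t : ℝ) (x : (Adl K)ˣ) :
    (fun y : Adl K => (x : Adl K) * y) '' (box868 K fun _ => t) = ibox868 K t x := by
  rw [image_mul_eq_preimage868]
  ext a
  have hI : ∀ w : InfinitePlace K, ‖(((x⁻¹ : (Adl K)ˣ) : Adl K) * a).1 w‖
      = ‖(x : Adl K).1 w‖⁻¹ * ‖a.1 w‖ := by
    intro w
    have h1 : (((x⁻¹ : (Adl K)ˣ) : Adl K) * a).1 w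
        = ((x⁻¹ : (Adl K)ˣ) : Adl K).1 w * a.1 w := rfl
    rw [h1, norm_mul, norm_inf_inv868]
  have hF : ∀ v : HeightOneSpectrum (𝓞 K), Valued.v ((((x⁻¹ : (Adl K)ˣ) : Adl K) * a).2 v)
      = (Valued.v ((x : Adl K).2 v))⁻¹ * Valued.v (a.2 v) := by
    intro v
    have h1 : (((x⁻¹ : (Adl K)ˣ) : Adl K) * a).2 v
        = ((x⁻¹ : (Adl K)ˣ) : Adl K).2 v * a.2 v := rfl
    rw [h1, map_mul, val_fin_inv868]
  simp only [Set.mem_preimage, mulCAE868_apply, box868, ibox868, Set.mem_ofPred_eq,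
    HeightOneSpectrum.mem_adicCompletionIntegers, hI, hF]
  refine and_congr (forall_congr' fun w => ?_) (forall_congr' fun v => ?_)
  · have hpos : 0 < ‖(x : Adl K).1 w‖ := norm_pos_iff.mpr (inf_ne_zero868 K x w)
    rw [inv_mul_le_iff₀ hpos, mul_comm]
  · have h0 := val_fin_ne_zero868 K x v
    rw [inv_mul_le_iff₀ (zero_lt_iff.mpr h0), mul_one]

/-- Multiplying by an idele moves idele boxes. -/
theorem mul_mem_ibox868 {t : ℝ} {x : (Adl K)ˣ} {a : Adl K} (ha : a ∈ ibox868 K t x)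
    (y : (Adl K)ˣ) : (y : Adl K) * a ∈ ibox868 K t (y * x) := by
  obtain ⟨h1, h2⟩ := ha
  refine ⟨fun w => ?_, fun v => ?_⟩
  · have e1 : ((y : Adl K) * a).1 w = (y : Adl K).1 w * a.1 w := rfl
    have e2 : ((y * x : (Adl K)ˣ) : Adl K).1 w = (y : Adl K).1 w * (x : Adl K).1 w := rfl
    rw [e1, e2, norm_mul, norm_mul]
    calc ‖(y : Adl K).1 w‖ * ‖a.1 w‖ ≤ ‖(y : Adl K).1 w‖ * (t * ‖(x : Adl K).1 w‖) :=
          mul_le_mul_of_nonneg_left (h1 w) (norm_nonneg _)
      _ = t * (‖(y : Adl K).1 w‖ * ‖(x : Adl K).1 w‖) := by ring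
  · have e1 : ((y : Adl K) * a).2 v = (y : Adl K).2 v * a.2 v := rfl
    have e2 : ((y * x : (Adl K)ˣ) : Adl K).2 v = (y : Adl K).2 v * (x : Adl K).2 v := rfl
    rw [e1, e2, map_mul, map_mul]
    exact mul_le_mul_right (h2 v) _

/-- Differences of two points of `ibox (1/2) x` lie in `ibox 1 x`. -/
theorem sub_mem_ibox868 {x : (Adl K)ˣ} {a b : Adl K} (ha : a ∈ ibox868 K (1 / 2) x)
    (hb : b ∈ ibox868 K (1 / 2) x) : a - b ∈ ibox868 K 1 x := by
  refine ⟨fun w => ?_, fun v => ?_⟩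
  · have e1 : (a - b).1 w = a.1 w - b.1 w := rfl
    rw [e1, one_mul]
    calc ‖a.1 w - b.1 w‖ ≤ ‖a.1 w‖ + ‖b.1 w‖ := norm_sub_le _ _
      _ ≤ 1 / 2 * ‖(x : Adl K).1 w‖ + 1 / 2 * ‖(x : Adl K).1 w‖ := add_le_add (ha.1 w) (hb.1 w)
      _ = ‖(x : Adl K).1 w‖ := by ring
  · have e1 : (a - b).2 v = a.2 v - b.2 v := rfl
    rw [e1]
    exact (Valuation.map_sub _ _ _).trans (max_le (ha.2 v) (hb.2 v))

/-! ## Compactness of the boxes -/

theorem isCompact_closedBall_inf868 (w : InfinitePlace K) (r : ℝ) :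
    IsCompact (Metric.closedBall (0 : w.Completion) r) := by
  by_cases hw : w.IsReal
  · have h := (InfinitePlace.Completion.isometryEquivRealOfIsReal hw).toHomeomorph.isCompact_preimage.mpr
      (isCompact_closedBall (0 : ℝ) r)
    have e : (InfinitePlace.Completion.isometryEquivRealOfIsReal hw).toHomeomorph ⁻¹'
        Metric.closedBall (0 : ℝ) r = Metric.closedBall (0 : w.Completion) r := by
      have := (InfinitePlace.Completion.isometryEquivRealOfIsReal hw).preimage_closedBall 0 r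
      have h0 : (InfinitePlace.Completion.isometryEquivRealOfIsReal hw).symm 0 = 0 :=
        map_zero (InfinitePlace.Completion.ringEquivRealOfIsReal hw).symm
      rw [h0] at this
      exact this
    rw [← e]
    exact h
  · have hc : w.IsComplex := InfinitePlace.not_isReal_iff_isComplex.1 hw
    have h := (InfinitePlace.Completion.isometryEquivComplexOfIsComplex hc).toHomeomorph.isCompact_preimage.mpr
      (isCompact_closedBall (0 : ℂ) r)
    have e : (InfinitePlace.Completion.isometryEquivComplexOfIsComplex hc).toHomeomorph ⁻¹'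
        Metric.closedBall (0 : ℂ) r = Metric.closedBall (0 : w.Completion) r := by
      have := (InfinitePlace.Completion.isometryEquivComplexOfIsComplex hc).preimage_closedBall 0 r
      have h0 : (InfinitePlace.Completion.isometryEquivComplexOfIsComplex hc).symm 0 = 0 :=
        map_zero (InfinitePlace.Completion.ringEquivComplexOfIsComplex hc).symm
      rw [h0] at this
      exact this
    rw [← e]
    exact h

theorem isCompact_box868 (r : InfinitePlace K → ℝ) : IsCompact (box868 K r) := by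
  rw [box868_eq]
  exact (isCompact_univ_pi fun w => isCompact_closedBall_inf868 K w (r w)).prod
    (isCompact_ohat868 K)

theorem isCompact_ibox868 (t : ℝ) (x : (Adl K)ˣ) : IsCompact (ibox868 K t x) := by
  rw [← image_box_eq_ibox868]
  exact (isCompact_box868 K _).image (continuous_const.mul continuous_id)

/-! ## The Minkowski lemma -/

variable {K}

/-- **The adelic Minkowski lemma.** -/
theorem minkowski868 (hLC : LocCompC K) (hFD : AddFundDomC K) (hN : AdNormC K) :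
    ∃ C : ℝ, ∀ x : (Adl K)ˣ, C < adNorm K (x : Adl K) →
      ∃ ξ : Kˣ, algebraMap K (Adl K) (ξ : K) ∈ ibox868 K 1 x := by
  letI : MeasurableSpace (Adl K) := borel (Adl K)
  haveI : BorelSpace (Adl K) := ⟨rfl⟩
  have hLC' := hLC
  obtain ⟨⟨hlc, ht2, hsc⟩, -⟩ := hLC
  haveI := hlc
  haveI := ht2
  haveI := hsc
  haveI := countable_princ868 K
  set μ : Measure (Adl K) := Measure.addHaar with hμ
  obtain ⟨D, hDm, hD, -, hD0, hD1⟩ := hFD μ inferInstance
  obtain ⟨⟨hb0, hb1⟩, hbr⟩ := measure_box868 μ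
  set S : Set (Adl K) := box868 K fun _ => 1 / 2 with hS
  have hSμ : μ S = ENNReal.ofReal (∏ w : InfinitePlace K, (1 / 2 : ℝ) ^ w.mult)
      * μ (box868 K fun _ => 1) := hbr _ fun _ => by norm_num
  have hS0 : μ S ≠ 0 := by
    rw [hSμ]
    refine mul_ne_zero ?_ hb0.ne'
    rw [Ne, ENNReal.ofReal_eq_zero, not_le]
    exact Finset.prod_pos fun w _ => by positivity
  have hS1 : μ S ≠ ⊤ := by
    rw [hSμ]
    exact ENNReal.mul_ne_top ENNReal.ofReal_ne_top hb1.ne
  refine ⟨(μ D / μ S).toReal, fun x hx => ?_⟩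
  -- the measure of `x S`
  have hxS : μ D < μ ((fun y : Adl K => (x : Adl K) * y) '' S) := by
    rw [haarScale868 hLC' hFD hN μ inferInstance x S]
    have hfin : μ D / μ S ≠ ⊤ := ENNReal.div_ne_top hD1.ne hS0
    have h1 : μ D / μ S < ENNReal.ofReal (adNorm K (x : Adl K)) := by
      rw [← ENNReal.ofReal_toReal hfin]
      exact (ENNReal.ofReal_lt_ofReal_iff (lt_of_le_of_lt ENNReal.toReal_nonneg hx)).mpr hx
    calc μ D = μ D / μ S * μ S := (ENNReal.div_mul_cancel hS0 hS1).symm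
      _ < ENNReal.ofReal (adNorm K (x : Adl K)) * μ S :=
          (ENNReal.mul_lt_mul_iff_left hS0 hS1).mpr h1
  have hmeas : NullMeasurableSet ((fun y : Adl K => (x : Adl K) * y) '' S) μ := by
    rw [image_box_eq_ibox868]
    exact (isCompact_ibox868 K _ x).measurableSet.nullMeasurableSet
  obtain ⟨g₁, g₂, hne, hnd⟩ := exists_pair_mem_lattice_not_disjoint_vadd hD hmeas hxS
  rw [Set.not_disjoint_iff] at hnd
  obtain ⟨a, ⟨s₁, hs₁, h1⟩, ⟨s₂, hs₂, h2⟩⟩ := hnd
  rw [image_box_eq_ibox868] at hs₁ hs₂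
  -- the difference of the lattice points
  have hdiff : ((g₂ - g₁ : princ K) : Adl K) = s₁ - s₂ := by
    have e1 : (g₁ : Adl K) + s₁ = a := h1
    have e2 : (g₂ : Adl K) + s₂ = a := h2
    have : (g₁ : Adl K) + s₁ = (g₂ : Adl K) + s₂ := e1.trans e2.symm
    rw [AddSubgroup.coe_sub]
    linear_combination -this
  obtain ⟨ξ, hξ⟩ := (g₂ - g₁).2
  have hξ' : algebraMap K (Adl K) ξ = s₁ - s₂ := by
    rw [← hdiff]
    exact hξ
  have hξ0 : ξ ≠ 0 := by
    rintro rfl
    apply hne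
    have h0 : ((g₂ - g₁ : princ K) : Adl K) = 0 := by
      rw [← hξ]
      simp
    have h3 : g₂ - g₁ = 0 := Subtype.ext h0
    exact (sub_eq_zero.mp h3).symm
  refine ⟨Units.mk0 ξ hξ0, ?_⟩
  rw [Units.val_mk0, hξ']
  exact sub_mem_ibox868 K hs₁ hs₂

end Fermat.Agent.LT.T1.H868

end
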