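import Mathlib
import Fermat.Agent.LT.T1.Spec
import Fermat.Agent.LT.T1.H868.Minkowski

/-!
# Row LT, tower T1, leaf T1.06: Fujisaki's lemma (helper868)

OFF-MAIN.  `leafFujisaki868 K : LeafFujisaki K`, i.e.
`LocCompC K → AdeleLatticeC K → AddFundDomC K → AdNormC K → FujisakiC K` (`𝔸¹_K / Kˣ` compact),
VERBATIM against `LT/T1/Spec.lean` (e8ae48d6).  Proof: Cassels–Fröhlich II §16, from the adelic
Minkowski lemma `minkowski868`.
-/

set_option autoImplicit false
set_option linter.style.haveILetI false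
set_option linter.unusedVariables false
set_option linter.unusedSectionVars false

open IsDedekindDomain NumberField MeasureTheory
open scoped ENNReal NNReal

noncomputable section

namespace Fermat.Agent.LT.T1.H868

open Fermat.Agent.LT.H556.A0

variable (K : Type) [Field K] [NumberField K]

/-! ## Ideles of large module -/

theorem norm_natCast_inf868 (w : InfinitePlace K) (N : ℕ) : ‖(N : w.Completion)‖ = N := by
  have h := (InfinitePlace.Completion.isometry_extensionEmbedding w).norm_map_of_map_zero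
    (map_zero _) (N : w.Completion)
  rw [map_natCast, Complex.norm_natCast] at h
  exact h.symm

theorem natCast_inf_ne_zero868 (w : InfinitePlace K) {N : ℕ} (hN : N ≠ 0) :
    (N : w.Completion) ≠ 0 := by
  intro h
  have := norm_natCast_inf868 K w N
  rw [h, norm_zero] at this
  exact hN (by exact_mod_cast this.symm)

/-- The idele which is `N` at every infinite place and `1` at every finite place. -/
def natIdele868 (N : ℕ) (hN : N ≠ 0) : (Adl K)ˣ where
  val := show Adl K from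
    (((fun w => (N : w.Completion)) : InfiniteAdeleRing K), (1 : FiniteAdeleRing (𝓞 K) K))
  inv := show Adl K from
    (((fun w => (N : w.Completion)⁻¹) : InfiniteAdeleRing K), (1 : FiniteAdeleRing (𝓞 K) K))
  val_inv := by
    refine Prod.ext (funext fun w => ?_) (mul_one _)
    exact mul_inv_cancel₀ (natCast_inf_ne_zero868 K w hN)
  inv_val := by
    refine Prod.ext (funext fun w => ?_) (mul_one _)
    exact inv_mul_cancel₀ (natCast_inf_ne_zero868 K w hN)

theorem adNorm_natIdele868 (N : ℕ) (hN : N ≠ 0) :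
    adNorm K (natIdele868 K N hN : Adl K) = (N : ℝ) ^ Module.finrank ℚ K := by
  unfold adNorm
  have h1 : ∀ w : InfinitePlace K, ‖((natIdele868 K N hN : (Adl K)ˣ) : Adl K).1 w‖ = N :=
    fun w => norm_natCast_inf868 K w N
  have h2 : (fun v : HeightOneSpectrum (𝓞 K) => ‖((natIdele868 K N hN : (Adl K)ˣ) : Adl K).2 v‖)
      = fun _ => 1 := funext fun v => by
    have : ((natIdele868 K N hN : (Adl K)ˣ) : Adl K).2 v = 1 := rfl
    rw [this, norm_one]
  rw [h2, finprod_one, mul_one]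
  simp only [h1]
  rw [Finset.prod_pow_eq_pow_sum, InfinitePlace.sum_mult_eq]

theorem exists_large_idele868 (C : ℝ) : ∃ α : (Adl K)ˣ, C < adNorm K (α : Adl K) := by
  obtain ⟨N, hN⟩ := exists_nat_gt (max C 1)
  have hN1 : (1 : ℝ) < N := lt_of_le_of_lt (le_max_right _ _) hN
  have hN0 : N ≠ 0 := by
    rintro rfl
    norm_num at hN1
  refine ⟨natIdele868 K N hN0, ?_⟩
  rw [adNorm_natIdele868]
  have hpos : Module.finrank ℚ K ≠ 0 := (Module.finrank_pos (R := ℚ) (M := K)).ne'
  calc C ≤ max C 1 := le_max_left _ _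
    _ < N := hN
    _ ≤ (N : ℝ) ^ Module.finrank ℚ K := le_self_pow₀ hN1.le hpos

/-! ## Fujisaki's lemma -/

variable {K}

theorem adNorm_inv868 (hN : AdNormC K) (x : (Adl K)ˣ) :
    adNorm K ((x⁻¹ : (Adl K)ˣ) : Adl K) = (adNorm K (x : Adl K))⁻¹ := by
  have h := hN.2.1 x⁻¹ x
  rw [inv_mul_cancel, adNorm_one868 hN] at h
  exact eq_inv_of_mul_eq_one_left h.symm

/-- Finitely many elements of `Kˣ` in a compact subset of `𝔸_K`. -/
theorem finite_rat_in_compact868 (hAL : AdeleLatticeC K) [T2Space (Adl K)] {W : Set (Adl K)}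
    (hW : IsCompact W) : {φ : Kˣ | algebraMap K (Adl K) (φ : K) ∈ W}.Finite := by
  obtain ⟨hdisc, hclosed, -⟩ := hAL
  haveI := hdisc
  -- the points of the lattice in `W`
  have h1 : IsCompact ((Subtype.val : princ K → Adl K) ⁻¹' W) :=
    hclosed.isClosedEmbedding_subtypeVal.isCompact_preimage hW
  have h2 : ((Subtype.val : princ K → Adl K) ⁻¹' W).Finite := h1.finite_of_discrete
  have h3 : ((princ K : Set (Adl K)) ∩ W).Finite := by
    have : (princ K : Set (Adl K)) ∩ W = Subtype.val '' ((Subtype.val : princ K → Adl K) ⁻¹' W) := by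
      ext a
      constructor
      · rintro ⟨ha1, ha2⟩
        exact ⟨⟨a, ha1⟩, ha2, rfl⟩
      · rintro ⟨b, hb, rfl⟩
        exact ⟨b.2, hb⟩
    rw [this]
    exact h2.image _
  have hinj : Function.Injective fun φ : Kˣ => algebraMap K (Adl K) (φ : K) :=
    fun a b hab => Units.ext (NumberField.AdeleRing.algebraMap_injective (𝓞 K) K hab)
  have h4 : {φ : Kˣ | algebraMap K (Adl K) (φ : K) ∈ W}
      = (fun φ : Kˣ => algebraMap K (Adl K) (φ : K)) ⁻¹' ((princ K : Set (Adl K)) ∩ W) := by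
    ext φ
    simp only [Set.mem_ofPred_eq, Set.mem_preimage, Set.mem_inter_iff, SetLike.mem_coe,
      iff_and_self]
    intro _
    exact ⟨(φ : K), rfl⟩
  rw [h4]
  exact h3.preimage (hinj.injOn)

/-- **T1.06, Fujisaki's lemma.** -/
theorem fujisaki868 (hLC : LocCompC K) (hAL : AdeleLatticeC K) (hFD : AddFundDomC K)
    (hN : AdNormC K) : FujisakiC K := by
  have hLC' := hLC
  obtain ⟨⟨hlc, ht2, hsc⟩, -⟩ := hLC
  haveI := hlc
  haveI := ht2
  haveI := hsc
  obtain ⟨C₀, hC₀⟩ := minkowski868 hLC' hFD hN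
  obtain ⟨α, hα⟩ := exists_large_idele868 K C₀
  -- the compact sets
  set W : Set (Adl K) := ibox868 K 1 α with hW
  have hWc : IsCompact W := isCompact_ibox868 K 1 α
  set W2 : Set (Adl K) := (fun p : Adl K × Adl K => p.1 * p.2) '' (W ×ˢ W) with hW2
  have hW2c : IsCompact W2 := (hWc.prod hWc).image (continuous_fst.mul continuous_snd)
  set Φ : Set Kˣ := {φ : Kˣ | algebraMap K (Adl K) (φ : K) ∈ W2} with hΦ
  have hΦf : Φ.Finite := finite_rat_in_compact868 hAL hW2c
  set W' : Set (Adl K) :=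
    ⋃ φ ∈ Φ, (fun a : Adl K => (((ratUnit K φ)⁻¹ : (Adl K)ˣ) : Adl K) * a) '' W with hW'
  have hW'c : IsCompact W' :=
    hΦf.isCompact_biUnion fun φ _ => hWc.image (continuous_const.mul continuous_id)
  set Cc : Set (Adl K)ˣ :=
    (Units.embedProduct (Adl K)) ⁻¹' (W ×ˢ (MulOpposite.op '' W')) with hCc
  have hCcc : IsCompact Cc :=
    Units.isClosedEmbedding_embedProduct.isCompact_preimage
      (hWc.prod (hW'c.image MulOpposite.continuous_op))
  refine ⟨Cc, hCcc, fun x hx => ?_⟩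
  -- two applications of Minkowski
  have hx' : adNorm K ((x⁻¹ : (Adl K)ˣ) : Adl K) = 1 := by
    rw [adNorm_inv868 hN, hx, inv_one]
  obtain ⟨η, hη⟩ := hC₀ (x⁻¹ * α) (by rw [hN.2.1, hx', one_mul]; exact hα)
  obtain ⟨θ, hθ⟩ := hC₀ (x * α) (by rw [hN.2.1, hx, one_mul]; exact hα)
  -- `y = η x ∈ W`, `z = θ x⁻¹ ∈ W`
  have hy : ((ratUnit K η * x : (Adl K)ˣ) : Adl K) ∈ W := by
    have := mul_mem_ibox868 K hη x
    rw [mul_inv_cancel_left] at this
    have e : ((ratUnit K η * x : (Adl K)ˣ) : Adl K)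
        = (x : Adl K) * algebraMap K (Adl K) (η : K) := by
      rw [Units.val_mul, mul_comm]
      rfl
    rw [e]
    exact this
  have hz : ((ratUnit K θ * x⁻¹ : (Adl K)ˣ) : Adl K) ∈ W := by
    have := mul_mem_ibox868 K hθ x⁻¹
    rw [inv_mul_cancel_left] at this
    have e : ((ratUnit K θ * x⁻¹ : (Adl K)ˣ) : Adl K)
        = ((x⁻¹ : (Adl K)ˣ) : Adl K) * algebraMap K (Adl K) (θ : K) := by
      rw [Units.val_mul, mul_comm]
      rfl
    rw [e]
    exact this
  -- the product is rational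
  have hprod : (ratUnit K η * x) * (ratUnit K θ * x⁻¹) = ratUnit K (η * θ) := by
    rw [map_mul]
    calc ratUnit K η * x * (ratUnit K θ * x⁻¹)
        = ratUnit K η * ratUnit K θ * (x * x⁻¹) := by
          simp only [mul_assoc, mul_left_comm, mul_comm]
      _ = ratUnit K η * ratUnit K θ := by rw [mul_inv_cancel, mul_one]
  have hφ : η * θ ∈ Φ := by
    show algebraMap K (Adl K) ((η * θ : Kˣ) : K) ∈ W2
    refine ⟨(((ratUnit K η * x : (Adl K)ˣ) : Adl K), ((ratUnit K θ * x⁻¹ : (Adl K)ˣ) : Adl K)),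
      ⟨hy, hz⟩, ?_⟩
    show ((ratUnit K η * x : (Adl K)ˣ) : Adl K) * ((ratUnit K θ * x⁻¹ : (Adl K)ˣ) : Adl K) = _
    rw [← Units.val_mul, hprod]
    rfl
  refine ⟨η⁻¹, ?_⟩
  have e1 : (ratUnit K η⁻¹)⁻¹ * x = ratUnit K η * x := by
    rw [map_inv, inv_inv]
  rw [e1]
  refine ⟨hy, ?_⟩
  -- the inverse of `y`
  refine ⟨(((ratUnit K η * x)⁻¹ : (Adl K)ˣ) : Adl K), ?_, rfl⟩
  refine Set.mem_biUnion hφ ?_
  refine ⟨((ratUnit K θ * x⁻¹ : (Adl K)ˣ) : Adl K), hz, ?_⟩
  show (((ratUnit K (η * θ))⁻¹ : (Adl K)ˣ) : Adl K) * ((ratUnit K θ * x⁻¹ : (Adl K)ˣ) : Adl K)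
    = (((ratUnit K η * x)⁻¹ : (Adl K)ˣ) : Adl K)
  rw [← Units.val_mul, ← hprod]
  congr 1
  have hgen : ∀ a b : (Adl K)ˣ, (a * b)⁻¹ * b = a⁻¹ := fun a b => by
    rw [mul_comm a b, mul_inv_rev, inv_mul_cancel_right]
  exact hgen _ _

/-- **Leaf T1.06.** -/
theorem leafFujisaki868 (K : Type) [Field K] [NumberField K] : LeafFujisaki K :=
  fun hLC hAL hFD hN => fujisaki868 hLC hAL hFD hN

end Fermat.Agent.LT.T1.H868

end
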